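import Mathlib

/-!
# Row LT, tower T3, station T3.18M, leaf M.7 `SplitMC` (helper719): the generic part -- OFF-MAIN

`prodHaarM719` (Mathlib only): a Haar measure of `(∀ i, A i) × (ι → ℂ)` (`A i` locally compact,
second countable, Hausdorff commutative topological groups with their Borel σ-algebras, `ι₁`, `ι`
finite) integrates the pure tensors of continuous functions with compact support to the product
of the integrals (Haar measures `Measure.addHaar` on the `A i`, Lebesgue on `ℂ`), up to a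
constant.  Multi-factor form of `T3.H800.prodHaarC800` (helper800).
-/

set_option autoImplicit false

open MeasureTheory

noncomputable section

namespace Fermat.Agent.LT.T3.M.H719

/-- A pure tensor of functions with compact support has compact support. -/
theorem hasCompactSupport_tensorM719 {ι₁ ι : Type} [Fintype ι₁] [Fintype ι] {A : ι₁ → Type}
    [∀ i, TopologicalSpace (A i)] [∀ i, T2Space (A i)]
    {φ₀ : ∀ i, A i → ℂ} {φ : ι → ℂ → ℂ} (h₀ : ∀ i, HasCompactSupport (φ₀ i))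
    (h : ∀ w, HasCompactSupport (φ w)) :
    HasCompactSupport (fun p : (∀ i, A i) × (ι → ℂ) =>
      (∏ i, φ₀ i (p.1 i)) * ∏ w : ι, φ w (p.2 w)) := by
  have hK : IsCompact ((Set.pi Set.univ fun i => tsupport (φ₀ i)) ×ˢ
      (Set.pi Set.univ fun w => tsupport (φ w))) :=
    (isCompact_univ_pi fun i => h₀ i).prod (isCompact_univ_pi fun w => h w)
  refine HasCompactSupport.intro hK fun p hp => ?_
  by_contra hne
  apply hp
  have h1 : ∏ i, φ₀ i (p.1 i) ≠ 0 := fun h0 => hne (by rw [h0, zero_mul])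
  have h2 : ∏ w : ι, φ w (p.2 w) ≠ 0 := fun h0 => hne (by rw [h0, mul_zero])
  refine ⟨fun i _ => subset_tsupport _ ?_, fun w _ => subset_tsupport _ ?_⟩
  · exact (Finset.prod_ne_zero_iff.mp h1) i (Finset.mem_univ i)
  · exact (Finset.prod_ne_zero_iff.mp h2) w (Finset.mem_univ w)

/-- **Multi-factor `ProdHaar`.** -/
theorem prodHaarM719 {ι₁ : Type} [Fintype ι₁] (A : ι₁ → Type) [∀ i, AddCommGroup (A i)]
    [∀ i, TopologicalSpace (A i)] [∀ i, IsTopologicalAddGroup (A i)]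
    [∀ i, LocallyCompactSpace (A i)] [∀ i, T2Space (A i)]
    [∀ i, SecondCountableTopology (A i)] [∀ i, MeasurableSpace (A i)] [∀ i, BorelSpace (A i)]
    (ι : Type) [Fintype ι]
    (μ : Measure ((∀ i, A i) × (ι → ℂ))) (hμ : μ.IsAddHaarMeasure) :
    ∃ c₀ : ℂ, ∀ (φ₀ : ∀ i, A i → ℂ) (φ : ι → ℂ → ℂ),
      (∀ i, Continuous (φ₀ i)) → (∀ i, HasCompactSupport (φ₀ i)) →
      (∀ w, Continuous (φ w)) → (∀ w, HasCompactSupport (φ w)) →
      Integrable (fun h : (∀ i, A i) × (ι → ℂ) =>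
        (∏ i, φ₀ i (h.1 i)) * ∏ w : ι, φ w (h.2 w)) μ ∧
      ∫ h, (∏ i, φ₀ i (h.1 i)) * ∏ w : ι, φ w (h.2 w) ∂μ
        = c₀ * (∏ i, ∫ x, φ₀ i x ∂(Measure.addHaar : Measure (A i)))
          * ∏ w : ι, ∫ z : ℂ, φ w z := by
  set π₀ : Measure (∀ i, A i) := Measure.pi (fun i => (Measure.addHaar : Measure (A i)))
    with hπ₀
  have hπ₀' : π₀.IsAddHaarMeasure := by rw [hπ₀]; infer_instance
  set m : Measure ((∀ i, A i) × (ι → ℂ)) := π₀.prod (volume : Measure (ι → ℂ)) with hm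
  have hm' : m.IsAddHaarMeasure := Measure.prod.instIsAddHaarMeasure _ _
  have hμm : μ = Measure.addHaarScalarFactor μ m • m := Measure.isAddLeftInvariant_eq_smul μ m
  refine ⟨((Measure.addHaarScalarFactor μ m : NNReal) : ℝ), fun φ₀ φ hc₀ hs₀ hc hs => ?_⟩
  have hcont : Continuous (fun p : (∀ i, A i) × (ι → ℂ) =>
      (∏ i, φ₀ i (p.1 i)) * ∏ w : ι, φ w (p.2 w)) :=
    (continuous_finsetProd _ fun i _ =>
        (hc₀ i).comp ((continuous_apply i).comp continuous_fst)).mul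
      (continuous_finsetProd _ fun w _ => (hc w).comp ((continuous_apply w).comp continuous_snd))
  have hsupp := hasCompactSupport_tensorM719 hs₀ hs
  refine ⟨hcont.integrable_of_hasCompactSupport hsupp, ?_⟩
  have h1 : ∫ p, (∏ i, φ₀ i (p.1 i)) * ∏ w : ι, φ w (p.2 w) ∂μ
      = ((Measure.addHaarScalarFactor μ m : NNReal) : ℝ)
        • ∫ p, (∏ i, φ₀ i (p.1 i)) * ∏ w : ι, φ w (p.2 w) ∂m := by
    conv_lhs => rw [hμm]
    rw [integral_smul_nnreal_measure]
    rfl
  have h2 : ∫ p, (∏ i, φ₀ i (p.1 i)) * ∏ w : ι, φ w (p.2 w) ∂m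
      = (∫ x : (∀ i, A i), ∏ i, φ₀ i (x i) ∂π₀) * ∫ y : ι → ℂ, ∏ w : ι, φ w (y w) :=
    integral_prod_mul (fun x : (∀ i, A i) => ∏ i, φ₀ i (x i))
      (fun y : ι → ℂ => ∏ w : ι, φ w (y w))
  have h3 : ∫ y : ι → ℂ, ∏ w : ι, φ w (y w) = ∏ w : ι, ∫ z : ℂ, φ w z :=
    integral_fintype_prod_volume_eq_prod φ
  have h4 : ∫ x : (∀ i, A i), ∏ i, φ₀ i (x i) ∂π₀
      = ∏ i, ∫ x, φ₀ i x ∂(Measure.addHaar : Measure (A i)) :=
    integral_fintype_prod_eq_prod φ₀
  rw [h1, h2, h3, h4, Complex.real_smul, mul_assoc]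

end Fermat.Agent.LT.T3.M.H719

end
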