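import Fermat.Agent.LT.T3.M.Spec
import Fermat.Agent.LT.H129.SplitClosed
import Fermat.Agent.LT.T3.M.H719.ProdHaarM

/-!
# Row LT, tower T3, station T3.18M, leaf M.7 `M.SplitMC` (helper719) -- OFF-MAIN

`splitMC719 K : M.SplitMC K`, VERBATIM the Prop of `LT/T3/M/Spec.lean` (helper14, sha256
`bf15afa4075803ee`), UNCONDITIONAL.

The closed single-place proof (`H129.splitC129`, helper129 on 497, 322, 250, 904, 800) with `v₀`
replaced by the finite set `P`:

* `E₀ = outGrpM K 𝔫 P` is an open additive subgroup of `𝔸_K` (proof of helper497);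
* `p = projM719 : 𝔸_K → (∀ v : P, K_v) × (S_∞ → ℂ)` maps `E₀` onto the target (the adele with the
  given components at `P` and at the infinite places and `0` elsewhere);
* `E₀ ∩ p⁻¹ (∏_{v ∈ P} 𝒪_v × unit balls)` lies in the compact box `T1.H919.box919 K 1`;
* hence `p_* (ν|_{E₀})` is a Haar measure (proof of helper904), and `prodHaarM719` applies.
-/

set_option autoImplicit false
set_option linter.style.haveILetI false

open IsDedekindDomain NumberField MeasureTheory
open Fermat.Agent.LT.H556.A0 Fermat.Agent.LT.T3.AS Fermat.Agent.LT.T3.AS.N893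

noncomputable section

namespace Fermat.Agent.LT.T3.M.H719

variable (K : Type) [Field K] [NumberField K]

/-- The projection `X ↦ ((X_v)_{v ∈ P}, (X_w)_w)`. -/
def projM719 (P : Finset (HeightOneSpectrum (𝓞 K))) (X : Adl K) :
    (∀ v : P, (v : HeightOneSpectrum (𝓞 K)).adicCompletion K) × (InfinitePlace K → ℂ) :=
  (fun v => finHom K v X, fun w => infHom K w X)

theorem continuous_projM719 (P : Finset (HeightOneSpectrum (𝓞 K))) :
    Continuous (projM719 K P) := by
  unfold projM719
  exact (continuous_pi fun v : P =>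
      Fermat.Agent.LT.T3.H904.continuous_finHom904 K (v : HeightOneSpectrum (𝓞 K))).prodMk
    (continuous_pi fun w => Fermat.Agent.LT.T3.H904.continuous_infHom904 K w)

theorem projM_add719 (P : Finset (HeightOneSpectrum (𝓞 K))) (X Y : Adl K) :
    projM719 K P (X + Y) = projM719 K P X + projM719 K P Y :=
  Prod.ext (funext fun v => map_add (finHom K v) X Y) (funext fun w => map_add (infHom K w) X Y)

theorem projM_zero719 (P : Finset (HeightOneSpectrum (𝓞 K))) : projM719 K P 0 = 0 :=
  Prod.ext (funext fun v => map_zero (finHom K v)) (funext fun w => map_zero (infHom K w))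

/-! ## `E₀` is an open additive subgroup -/

theorem zero_mem_outGrpM719 (𝔫 : Ideal (𝓞 K)) (P : Finset (HeightOneSpectrum (𝓞 K))) :
    (0 : Adl K) ∈ outGrpM K 𝔫 P := by
  intro v _
  rw [map_zero, Fermat.Agent.LT.T3.H904.idealClosure_eq904]
  exact zero_mem _

theorem add_mem_outGrpM719 (𝔫 : Ideal (𝓞 K)) (P : Finset (HeightOneSpectrum (𝓞 K)))
    {X Y : Adl K} (hX : X ∈ outGrpM K 𝔫 P) (hY : Y ∈ outGrpM K 𝔫 P) :
    X + Y ∈ outGrpM K 𝔫 P := by
  intro v hv
  have h1 := hX v hv
  have h2 := hY v hv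
  rw [Fermat.Agent.LT.T3.H904.idealClosure_eq904] at h1 h2 ⊢
  rw [map_add]
  exact add_mem h1 h2

theorem neg_mem_outGrpM719 (𝔫 : Ideal (𝓞 K)) (P : Finset (HeightOneSpectrum (𝓞 K)))
    {X : Adl K} (hX : X ∈ outGrpM K 𝔫 P) : -X ∈ outGrpM K 𝔫 P := by
  intro v hv
  have h1 := hX v hv
  rw [Fermat.Agent.LT.T3.H904.idealClosure_eq904] at h1 ⊢
  rw [map_neg]
  exact neg_mem h1

theorem preimage_add_outGrpM719 (𝔫 : Ideal (𝓞 K)) (P : Finset (HeightOneSpectrum (𝓞 K)))
    {X₀ : Adl K} (hX₀ : X₀ ∈ outGrpM K 𝔫 P) :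
    (fun X : Adl K => X₀ + X) ⁻¹' outGrpM K 𝔫 P = outGrpM K 𝔫 P := by
  ext X
  constructor
  · intro h
    have h' : X₀ + X ∈ outGrpM K 𝔫 P := h
    have := add_mem_outGrpM719 K 𝔫 P (neg_mem_outGrpM719 K 𝔫 P hX₀) h'
    rwa [neg_add_cancel_left] at this
  · intro h
    exact add_mem_outGrpM719 K 𝔫 P hX₀ h

/-- `E₀` is open (proof of helper497, `T3.H497.splitOpenC497`). -/
theorem isOpen_outGrpM719 (𝔫 : Ideal (𝓞 K)) (h𝔫 : 𝔫 ≠ ⊥)
    (P : Finset (HeightOneSpectrum (𝓞 K))) : IsOpen (outGrpM K 𝔫 P) := by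
  obtain ⟨a, ha, ha0⟩ : ∃ a ∈ 𝔫, a ≠ 0 := Submodule.exists_mem_ne_zero_of_ne_bot h𝔫
  have hα : algebraMap (𝓞 K) K a ≠ 0 := by
    intro h
    exact ha0 ((FaithfulSMul.algebraMap_injective (𝓞 K) K) (by rw [h, map_zero]))
  set α : K := algebraMap (𝓞 K) K a with hαdef
  rw [isOpen_iff_mem_nhds]
  intro X hX
  have hcont : Continuous (fun Y : Adl K => algebraMap K (Adl K) α⁻¹ * (Y - X)) :=
    continuous_const.mul (continuous_id.sub continuous_const)
  have hU : {Y : Adl K | ∀ v : HeightOneSpectrum (𝓞 K),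
      Valued.v (finHom K v (algebraMap K (Adl K) α⁻¹ * (Y - X))) ≤ 1} ∈ nhds X := by
    refine ((Fermat.Agent.LT.T3.H497.isOpen_intAdl497 (K := K)).preimage hcont).mem_nhds ?_
    intro v
    show Valued.v (finHom K v (algebraMap K (Adl K) α⁻¹ * (X - X))) ≤ 1
    rw [sub_self, mul_zero, map_zero, map_zero]
    exact zero_le_one
  refine Filter.mem_of_superset hU ?_
  intro Y hY v hv
  have hYv := hY v
  have e0 : algebraMap K (Adl K) α * (algebraMap K (Adl K) α⁻¹ * (Y - X)) = Y - X := by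
    rw [← mul_assoc, ← map_mul, mul_inv_cancel₀ hα, map_one, one_mul]
  have e1 : finHom K v (algebraMap K (Adl K) α) = algebraMap K (v.adicCompletion K) α := rfl
  have e : finHom K v Y = finHom K v X
      + algebraMap K (v.adicCompletion K) α
        * finHom K v (algebraMap K (Adl K) α⁻¹ * (Y - X)) := by
    rw [← e1, ← map_mul, e0, map_sub]
    ring
  show finHom K v Y ∈ idealClosure 𝔫 v
  rw [e]
  exact Fermat.Agent.LT.T3.H497.add_mem_idealClosure497 𝔫 v (hX v hv)
    (Fermat.Agent.LT.T3.H497.mul_int_mem_idealClosure497 v ha hYv)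

/-! ## The section -/

open scoped Classical in
/-- The finite adele with the components `x v` at `v ∈ P` and `0` elsewhere. -/
def finFamily719 (P : Finset (HeightOneSpectrum (𝓞 K)))
    (x : ∀ v : P, (v : HeightOneSpectrum (𝓞 K)).adicCompletion K) :
    FiniteAdeleRing (𝓞 K) K :=
  ⟨fun v => if h : v ∈ P then x ⟨v, h⟩ else 0, by
    rw [Filter.eventually_cofinite]
    refine P.finite_toSet.subset ?_
    intro v hv
    by_contra hvP
    apply hv
    have hvP' : v ∉ P := hvP
    simp only [dif_neg hvP']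
    exact zero_mem _⟩

open scoped Classical in
theorem finFamily719_mem (P : Finset (HeightOneSpectrum (𝓞 K)))
    (x : ∀ v : P, (v : HeightOneSpectrum (𝓞 K)).adicCompletion K) (v : P) :
    finFamily719 K P x (v : HeightOneSpectrum (𝓞 K)) = x v := by
  show (if h : (v : HeightOneSpectrum (𝓞 K)) ∈ P then x ⟨v, h⟩ else 0) = x v
  rw [dif_pos v.2]

open scoped Classical in
theorem finFamily719_not_mem (P : Finset (HeightOneSpectrum (𝓞 K)))
    (x : ∀ v : P, (v : HeightOneSpectrum (𝓞 K)).adicCompletion K)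
    {v : HeightOneSpectrum (𝓞 K)} (hv : v ∉ P) : finFamily719 K P x v = 0 := by
  show (if h : v ∈ P then x ⟨v, h⟩ else (0 : v.adicCompletion K)) = 0
  rw [dif_neg hv]

/-- Every element of the target is the projection of an element of `E₀`. -/
theorem exists_section719 (hcpx : ∀ w : InfinitePlace K, w.IsComplex) (𝔫 : Ideal (𝓞 K))
    (P : Finset (HeightOneSpectrum (𝓞 K)))
    (h : (∀ v : P, (v : HeightOneSpectrum (𝓞 K)).adicCompletion K) × (InfinitePlace K → ℂ)) :
    ∃ X : Adl K, X ∈ outGrpM K 𝔫 P ∧ projM719 K P X = h := by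
  choose y hy using fun w : InfinitePlace K =>
    InfinitePlace.Completion.surjective_extensionEmbedding_of_isComplex (hcpx w) (h.2 w)
  refine ⟨((y : InfiniteAdeleRing K), finFamily719 K P h.1), ?_, ?_⟩
  · intro v hv
    have h1 : finHom K v (((y : InfiniteAdeleRing K), finFamily719 K P h.1) : Adl K)
        = finFamily719 K P h.1 v := rfl
    rw [h1, finFamily719_not_mem K P h.1 hv]
    exact Fermat.Agent.LT.T3.H322.zero_mem_idealClosure322 K 𝔫 v
  · refine Prod.ext (funext fun v => ?_) (funext fun w => ?_)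
    · have h1 : finHom K v (((y : InfiniteAdeleRing K), finFamily719 K P h.1) : Adl K)
          = finFamily719 K P h.1 v := rfl
      show finHom K v (((y : InfiniteAdeleRing K), finFamily719 K P h.1) : Adl K) = h.1 v
      rw [h1, finFamily719_mem]
    · have h1 : infHom K w (((y : InfiniteAdeleRing K), finFamily719 K P h.1) : Adl K)
          = InfinitePlace.Completion.extensionEmbedding w (y w) := rfl
      show infHom K w (((y : InfiniteAdeleRing K), finFamily719 K P h.1) : Adl K) = h.2 w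
      rw [h1, hy w]

/-! ## The box -/

/-- The elements of `E₀` which are integral at `P` and of norm `≤ 1` at the infinite places lie
in the compact box. -/
theorem mem_box_of_outGrpM719 (𝔫 : Ideal (𝓞 K)) (P : Finset (HeightOneSpectrum (𝓞 K)))
    {X : Adl K} (hX : X ∈ outGrpM K 𝔫 P)
    (hP : ∀ v ∈ P, Valued.v (finHom K v X) ≤ 1)
    (hinf : ∀ w : InfinitePlace K, ‖infHom K w X‖ ≤ 1) :
    X ∈ Fermat.Agent.LT.T1.H919.box919 K 1 := by
  refine ⟨fun w => ?_, fun v => ?_⟩
  · have h := hinf w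
    have e : infHom K w X = InfinitePlace.Completion.extensionEmbedding w (X.1 w) := rfl
    rw [e, Fermat.Agent.LT.T1.H793.norm_extensionEmbedding793] at h
    exact h
  · by_cases hv : v ∈ P
    · have h := hP v hv
      have e : finHom K v X = X.2 v := rfl
      rw [e] at h
      exact (HeightOneSpectrum.mem_adicCompletionIntegers (R := 𝓞 K) (K := K) (v := v)).2 h
    · exact Fermat.Agent.LT.T3.H250.idealClosure_subset_integers250 K 𝔫 v (hX v hv)

/-! ## The Haar property (proof of helper904, `T3.H904.splitHaar_of904`) -/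

/-- The image of `ν|_{E₀}` under the projection is a Haar measure of
`(∀ v : P, K_v) × (S_∞ → ℂ)`. -/
theorem splitHaarM719 (hcpx : ∀ w : InfinitePlace K, w.IsComplex)
    [MeasurableSpace (Adl K)] [BorelSpace (Adl K)]
    [∀ v : HeightOneSpectrum (𝓞 K), MeasurableSpace (v.adicCompletion K)]
    [∀ v : HeightOneSpectrum (𝓞 K), BorelSpace (v.adicCompletion K)]
    (ν : Measure (Adl K)) [ν.IsAddHaarMeasure] (𝔫 : Ideal (𝓞 K)) (h𝔫 : 𝔫 ≠ ⊥)
    (P : Finset (HeightOneSpectrum (𝓞 K))) :
    (Measure.map (projM719 K P) (ν.restrict (outGrpM K 𝔫 P))).IsAddHaarMeasure := by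
  haveI : ∀ v : HeightOneSpectrum (𝓞 K), SecondCountableTopology (v.adicCompletion K) :=
    fun v => Fermat.Agent.LT.H11.SC.secondCountableTopology_adicCompletion_h11 K v
  have hE₀open : IsOpen (outGrpM K 𝔫 P) := isOpen_outGrpM719 K 𝔫 h𝔫 P
  have hE₀meas : MeasurableSet (outGrpM K 𝔫 P) := hE₀open.measurableSet
  have hpc : Continuous (projM719 K P) := continuous_projM719 K P
  have hpm : Measurable (projM719 K P) := hpc.measurable
  -- invariance
  haveI hinv : (Measure.map (projM719 K P) (ν.restrict (outGrpM K 𝔫 P))).IsAddLeftInvariant := by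
    refine ⟨fun h => ?_⟩
    obtain ⟨Xh, hXh, hpX⟩ := exists_section719 K hcpx 𝔫 P h
    rw [Measure.map_map (measurable_const_add h) hpm]
    have hcomp : (fun x => h + x) ∘ projM719 K P
        = projM719 K P ∘ (fun X : Adl K => Xh + X) := by
      funext X
      show h + projM719 K P X = projM719 K P (Xh + X)
      rw [projM_add719, hpX]
    rw [hcomp, ← Measure.map_map hpm (measurable_const_add Xh)]
    congr 1
    have hpre := preimage_add_outGrpM719 K 𝔫 P hXh
    calc Measure.map (fun X : Adl K => Xh + X) (ν.restrict (outGrpM K 𝔫 P))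
        = Measure.map (fun X : Adl K => Xh + X)
            (ν.restrict ((fun X : Adl K => Xh + X) ⁻¹' outGrpM K 𝔫 P)) := by rw [hpre]
      _ = (Measure.map (fun X : Adl K => Xh + X) ν).restrict (outGrpM K 𝔫 P) :=
          (Measure.restrict_map (measurable_const_add Xh) hE₀meas).symm
      _ = ν.restrict (outGrpM K 𝔫 P) := by rw [map_add_left_eq_self]
  -- the compact neighbourhood of `0`
  set O : Set (∀ v : P, (v : HeightOneSpectrum (𝓞 K)).adicCompletion K) :=
    Set.pi Set.univ (fun v : P =>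
      (((v : HeightOneSpectrum (𝓞 K)).adicCompletionIntegers K :
        Set ((v : HeightOneSpectrum (𝓞 K)).adicCompletion K)))) with hO
  have hOc : IsCompact O :=
    isCompact_univ_pi fun v : P =>
      Fermat.Agent.LT.H11.LC.isCompact_integers_h11 K (v : HeightOneSpectrum (𝓞 K))
  have hOo : IsOpen O :=
    isOpen_set_pi Set.finite_univ fun v _ =>
      Valued.isOpen_valuationSubring ((v : HeightOneSpectrum (𝓞 K)).adicCompletion K)
  have hK0c : IsCompact (O ×ˢ Metric.closedBall (0 : InfinitePlace K → ℂ) 1) :=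
    hOc.prod (isCompact_closedBall 0 1)
  have hUo : IsOpen (O ×ˢ Metric.ball (0 : InfinitePlace K → ℂ) 1) :=
    hOo.prod Metric.isOpen_ball
  have hUsub : (O ×ˢ Metric.ball (0 : InfinitePlace K → ℂ) 1) ⊆
      (O ×ˢ Metric.closedBall (0 : InfinitePlace K → ℂ) 1) :=
    Set.prod_mono le_rfl Metric.ball_subset_closedBall
  have h0O : (0 : ∀ v : P, (v : HeightOneSpectrum (𝓞 K)).adicCompletion K) ∈ O :=
    fun v _ => zero_mem _
  have h0U : (0 : (∀ v : P, (v : HeightOneSpectrum (𝓞 K)).adicCompletion K)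
      × (InfinitePlace K → ℂ)) ∈ (O ×ˢ Metric.ball (0 : InfinitePlace K → ℂ) 1) :=
    ⟨h0O, Metric.mem_ball_self one_pos⟩
  have hK0i : (interior (O ×ˢ Metric.closedBall (0 : InfinitePlace K → ℂ) 1)).Nonempty :=
    ⟨0, interior_maximal hUsub hUo h0U⟩
  -- positivity
  have hpos : Measure.map (projM719 K P) (ν.restrict (outGrpM K 𝔫 P))
      (O ×ˢ Metric.closedBall (0 : InfinitePlace K → ℂ) 1) ≠ 0 := by
    have hle := measure_mono (μ := Measure.map (projM719 K P) (ν.restrict (outGrpM K 𝔫 P)))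
      hUsub
    have hU : Measure.map (projM719 K P) (ν.restrict (outGrpM K 𝔫 P))
        (O ×ˢ Metric.ball (0 : InfinitePlace K → ℂ) 1) ≠ 0 := by
      rw [Measure.map_apply hpm hUo.measurableSet,
        Measure.restrict_apply (hpm hUo.measurableSet)]
      have hopen : IsOpen (projM719 K P ⁻¹'
          (O ×ˢ Metric.ball (0 : InfinitePlace K → ℂ) 1) ∩ outGrpM K 𝔫 P) :=
        (hUo.preimage hpc).inter hE₀open
      have hne : (projM719 K P ⁻¹'
          (O ×ˢ Metric.ball (0 : InfinitePlace K → ℂ) 1) ∩ outGrpM K 𝔫 P).Nonempty := by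
        refine ⟨0, ?_, zero_mem_outGrpM719 K 𝔫 P⟩
        show projM719 K P 0 ∈ (O ×ˢ Metric.ball (0 : InfinitePlace K → ℂ) 1)
        rw [projM_zero719]
        exact h0U
      exact (hopen.measure_pos ν hne).ne'
    intro h0
    rw [h0] at hle
    exact hU (le_antisymm hle bot_le)
  -- finiteness
  have hfin : Measure.map (projM719 K P) (ν.restrict (outGrpM K 𝔫 P))
      (O ×ˢ Metric.closedBall (0 : InfinitePlace K → ℂ) 1) ≠ ⊤ := by
    have hK0m : MeasurableSet (O ×ˢ Metric.closedBall (0 : InfinitePlace K → ℂ) 1) :=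
      hK0c.isClosed.measurableSet
    rw [Measure.map_apply hpm hK0m, Measure.restrict_apply (hpm hK0m)]
    refine ((measure_mono ?_).trans_lt
      (Fermat.Agent.LT.T1.H919.isCompact_box919 (K := K) 1).measure_lt_top).ne
    rintro X ⟨hX1, hX2⟩
    have hX1' : projM719 K P X ∈ (O ×ˢ Metric.closedBall (0 : InfinitePlace K → ℂ) 1) := hX1
    refine mem_box_of_outGrpM719 K 𝔫 P hX2 ?_ ?_
    · intro v hv
      have hmem := hX1'.1 ⟨v, hv⟩ (Set.mem_univ _)
      exact (HeightOneSpectrum.mem_adicCompletionIntegers (R := 𝓞 K) (K := K) (v := v)).1 hmem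
    · intro w
      have hb : (fun w => infHom K w X) ∈ Metric.closedBall (0 : InfinitePlace K → ℂ) 1 :=
        hX1'.2
      rw [mem_closedBall_zero_iff] at hb
      exact (norm_le_pi_norm (fun w => infHom K w X) w).trans hb
  exact Measure.isAddHaarMeasure_of_isCompact_nonempty_interior _ _ hK0c hK0i hpos hfin

/-- `E₀` is closed in `𝔸_K`. -/
theorem isClosed_outGrpM719 (𝔫 : Ideal (𝓞 K)) (P : Finset (HeightOneSpectrum (𝓞 K))) :
    IsClosed (outGrpM K 𝔫 P) := by
  have e : outGrpM K 𝔫 P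
      = ⋂ v : HeightOneSpectrum (𝓞 K), ⋂ _ : v ∉ P,
          (fun X : Adl K => finHom K v X) ⁻¹' idealClosure 𝔫 v := by
    ext X
    simp only [outGrpM, Set.mem_ofPred_eq, Set.mem_iInter, Set.mem_preimage]
  rw [e]
  refine isClosed_iInter fun v => isClosed_iInter fun _ => ?_
  exact IsClosed.preimage (Fermat.Agent.LT.T3.H904.continuous_finHom904 K v) isClosed_closure

/-! ## The leaf -/

/-- **T3.18M.7 = M.7 `SplitMC`**, VERBATIM, UNCONDITIONAL. -/
theorem splitMC719 : SplitMC K := by
  letI : MeasurableSpace (Adl K) := borel (Adl K)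
  haveI : BorelSpace (Adl K) := ⟨rfl⟩
  intro hcx ν hν 𝔫 h𝔫 P
  letI mv : ∀ v : HeightOneSpectrum (𝓞 K), MeasurableSpace (v.adicCompletion K) :=
    fun v => borel (v.adicCompletion K)
  haveI : ∀ v : HeightOneSpectrum (𝓞 K), BorelSpace (v.adicCompletion K) := fun v => ⟨rfl⟩
  haveI : ∀ v : HeightOneSpectrum (𝓞 K), LocallyCompactSpace (v.adicCompletion K) :=
    fun v => Fermat.Agent.LT.H11.LC.locallyCompactSpace_adicCompletion_h11 K v
  haveI : ∀ v : HeightOneSpectrum (𝓞 K), SecondCountableTopology (v.adicCompletion K) :=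
    fun v => Fermat.Agent.LT.H11.SC.secondCountableTopology_adicCompletion_h11 K v
  refine ⟨fun v => (Measure.addHaar : Measure (v.adicCompletion K)), fun v => inferInstance, ?_⟩
  have hμ : (Measure.map (projM719 K P) (ν.restrict (outGrpM K 𝔫 P))).IsAddHaarMeasure :=
    splitHaarM719 K hcx ν 𝔫 h𝔫 P
  obtain ⟨c₀, h⟩ := prodHaarM719
    (fun v : P => (v : HeightOneSpectrum (𝓞 K)).adicCompletion K) (InfinitePlace K) _ hμ
  refine ⟨c₀, ?_⟩
  intro φ₀ φ hφ₀ hφ₀c hφ hφc
  obtain ⟨hint, hval⟩ := h (fun v : P => φ₀ (v : HeightOneSpectrum (𝓞 K))) φ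
    (fun v => hφ₀ v v.2) (fun v => hφ₀c v v.2) hφ hφc
  have hE : MeasurableSet (outGrpM K 𝔫 P) := (isClosed_outGrpM719 K 𝔫 P).measurableSet
  have hp : Measurable (projM719 K P) := (continuous_projM719 K P).measurable
  have hfc : Continuous (fun h : (∀ v : P, (v : HeightOneSpectrum (𝓞 K)).adicCompletion K)
        × (InfinitePlace K → ℂ) =>
      (∏ v : P, φ₀ (v : HeightOneSpectrum (𝓞 K)) (h.1 v))
        * ∏ w : InfinitePlace K, φ w (h.2 w)) := by
    refine (continuous_finsetProd _ fun v _ => ?_).mul (continuous_finsetProd _ fun w _ => ?_)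
    · exact (hφ₀ v v.2).comp ((continuous_apply v).comp continuous_fst)
    · exact (hφ w).comp ((continuous_apply w).comp continuous_snd)
  have hfun : (fun X : Adl K => (outGrpM K 𝔫 P).indicator (fun _ => (1 : ℂ)) X
        * (∏ v ∈ P, φ₀ v (finHom K v X)) * ∏ w : InfinitePlace K, φ w (infHom K w X))
      = (outGrpM K 𝔫 P).indicator
          ((fun h : (∀ v : P, (v : HeightOneSpectrum (𝓞 K)).adicCompletion K)
              × (InfinitePlace K → ℂ) =>
            (∏ v : P, φ₀ (v : HeightOneSpectrum (𝓞 K)) (h.1 v))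
              * ∏ w : InfinitePlace K, φ w (h.2 w)) ∘ projM719 K P) := by
    funext X
    have hprod : (∏ v ∈ P, φ₀ v (finHom K v X))
        = ∏ v : P, φ₀ (v : HeightOneSpectrum (𝓞 K)) (finHom K (v : HeightOneSpectrum (𝓞 K)) X) :=
      (Finset.prod_coe_sort P (fun v => φ₀ v (finHom K v X))).symm
    by_cases hX : X ∈ outGrpM K 𝔫 P
    · rw [Set.indicator_of_mem hX, Set.indicator_of_mem hX, one_mul, hprod]
      rfl
    · rw [Set.indicator_of_notMem hX, Set.indicator_of_notMem hX, zero_mul, zero_mul]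
  have hprodI : (∏ v ∈ P, ∫ x, φ₀ v x ∂(Measure.addHaar : Measure (v.adicCompletion K)))
      = ∏ v : P, ∫ x, φ₀ (v : HeightOneSpectrum (𝓞 K)) x
          ∂(Measure.addHaar : Measure ((v : HeightOneSpectrum (𝓞 K)).adicCompletion K)) :=
    (Finset.prod_coe_sort P
      (fun v => ∫ x, φ₀ v x ∂(Measure.addHaar : Measure (v.adicCompletion K)))).symm
  rw [hfun]
  constructor
  · rw [integrable_indicator_iff hE]
    exact (integrable_map_measure hfc.aestronglyMeasurable hp.aemeasurable).mp hint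
  · rw [integral_indicator hE, hprodI, ← hval]
    exact (integral_map hp.aemeasurable hfc.aestronglyMeasurable).symm

example : SplitMC K := splitMC719 K

end Fermat.Agent.LT.T3.M.H719

end
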